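import Mathlib

/-!
# Row S56 — (REC-Q) leaf URUR, linear algebra (helper669)

`V` a 2-dimensional vector space over a field `k` in which `2 ≠ 0`, `A` an invertible
endomorphism with characteristic polynomial `(X - α)(X - β)`, `α ≠ β`.  Then there is an
endomorphism `h` (`= diag(1, -1)` in an eigenbasis of `A`) commuting with `A`, with
`tr (h * h) ≠ 0`, such that every trace-zero endomorphism is `t • h + (A m A⁻¹ - m)`.

Mathlib only.
-/

set_option autoImplicit false

open Polynomial

noncomputable section

namespace Fermat.Agent.S56.GW.H669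

section Mat

variable {k : Type*} [Field k]

/-- The matrix `diag(1, -1)`. -/
def hMat (k : Type*) [Field k] : Matrix (Fin 2) (Fin 2) k := !![1, 0; 0, -1]

theorem hMat_mul_diagonal (α β : k) :
    Matrix.diagonal ![α, β] * hMat k = hMat k * Matrix.diagonal ![α, β] := by
  ext i j
  rw [Matrix.diagonal_mul, Matrix.mul_diagonal]
  fin_cases i <;> fin_cases j <;> simp [hMat]

theorem trace_hMat_mul_hMat : (hMat k * hMat k).trace = 2 := by
  simp [hMat, Matrix.trace_fin_two]
  norm_num

/-- The key matrix identity: a trace-zero matrix is `t • h` plus a commutator with the diagonal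
matrix `D = diag(α, β)`, `α ≠ β` (in the form `(z - t • h) D = D m - m D`). -/
theorem exists_mat_decomp {α β : k} (hαβ : α ≠ β) (z : Matrix (Fin 2) (Fin 2) k)
    (hz : z.trace = 0) :
    ∃ (t : k) (m : Matrix (Fin 2) (Fin 2) k),
      (z - t • hMat k) * Matrix.diagonal ![α, β] =
        Matrix.diagonal ![α, β] * m - m * Matrix.diagonal ![α, β] := by
  have hδ : α - β ≠ 0 := sub_ne_zero.mpr hαβ
  have hz' : z 1 1 = - z 0 0 := by
    rw [Matrix.trace_fin_two] at hz
    exact eq_neg_of_add_eq_zero_right hz
  refine ⟨z 0 0, !![0, z 0 1 * β / (α - β); - (z 1 0 * α / (α - β)), 0], ?_⟩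
  ext i j
  rw [Matrix.sub_apply, Matrix.mul_diagonal, Matrix.diagonal_mul, Matrix.mul_diagonal,
    Matrix.sub_apply, Matrix.smul_apply]
  fin_cases i <;> fin_cases j
  · simp [hMat]
  · simp [hMat]
    field_simp
  · simp [hMat]
    field_simp
    ring
  · simp [hMat, hz']

end Mat

section End

variable {k V : Type*} [Field k] [AddCommGroup V] [Module k V] [Module.Finite k V]

/-- **URUR, linear algebra.**  For a regular semisimple `A` on a plane: a "Cartan direction" `h`
and the decomposition `End⁰ = k h ⊕ (Ad A - 1) End`. -/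
theorem exists_line_decomp (hV : Module.finrank k V = 2) (h2 : (2 : k) ≠ 0)
    (A B : Module.End k V) (hAB : A * B = 1) {α β : k} (hαβ : α ≠ β)
    (hchar : LinearMap.charpoly A = (X - C α) * (X - C β)) :
    ∃ h : Module.End k V, A * h = h * A ∧ LinearMap.trace k V (h * h) ≠ 0 ∧
      ∀ z : Module.End k V, LinearMap.trace k V z = 0 →
        ∃ (t : k) (m : Module.End k V), z = t • h + (A * m * B - m) := by
  -- eigenvectors
  have hα : A.HasEigenvalue α := by
    rw [Module.End.hasEigenvalue_iff_isRoot_charpoly, hchar]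
    simp
  have hβ : A.HasEigenvalue β := by
    rw [Module.End.hasEigenvalue_iff_isRoot_charpoly, hchar]
    simp
  obtain ⟨v₀, hv₀⟩ := hα.exists_hasEigenvector
  obtain ⟨v₁, hv₁⟩ := hβ.exists_hasEigenvector
  have hμinj : Function.Injective ![α, β] := by
    intro i j hij
    fin_cases i <;> fin_cases j
    · rfl
    · exact absurd hij hαβ
    · exact absurd hij.symm hαβ
    · rfl
  have hvec : ∀ i : Fin 2, A.HasEigenvector (![α, β] i) (![v₀, v₁] i) := by
    intro i
    fin_cases i
    · exact hv₀
    · exact hv₁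
  have hli : LinearIndependent k ![v₀, v₁] :=
    Module.End.eigenvectors_linearIndependent' A ![α, β] hμinj ![v₀, v₁] hvec
  let b : Module.Basis (Fin 2) k V :=
    basisOfLinearIndependentOfCardEqFinrank hli (by rw [Fintype.card_fin, hV])
  have hb : ⇑b = ![v₀, v₁] := coe_basisOfLinearIndependentOfCardEqFinrank hli _
  have hAb : ∀ j : Fin 2, A (b j) = ![α, β] j • b j := by
    intro j
    rw [hb]
    exact (hvec j).apply_eq_smul
  let E : Module.End k V ≃ₐ[k] Matrix (Fin 2) (Fin 2) k := LinearMap.toMatrixAlgEquiv b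
  have hEA : E A = Matrix.diagonal ![α, β] := by
    ext i j
    show LinearMap.toMatrixAlgEquiv b A i j = _
    rw [LinearMap.toMatrixAlgEquiv_apply, hAb j, map_smul, Finsupp.smul_apply,
      Module.Basis.repr_self, Matrix.diagonal_apply, Finsupp.single_apply, smul_eq_mul]
    by_cases hij : i = j
    · subst hij
      simp
    · rw [if_neg hij, if_neg (fun h => hij h.symm), mul_zero]
  have htr : ∀ f : Module.End k V, LinearMap.trace k V f = (E f).trace := fun f => by
    rw [LinearMap.trace_eq_matrix_trace k b f]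
    rfl
  have hEAB : Matrix.diagonal ![α, β] * E B = 1 := by
    rw [← hEA, ← map_mul, hAB, map_one]
  refine ⟨E.symm (hMat k), ?_, ?_, ?_⟩
  · apply E.injective
    rw [map_mul, map_mul, AlgEquiv.apply_symm_apply, hEA, hMat_mul_diagonal]
  · rw [htr, map_mul, AlgEquiv.apply_symm_apply, trace_hMat_mul_hMat]
    exact h2
  · intro z hz
    obtain ⟨t, m, hm⟩ := exists_mat_decomp hαβ (E z) (by rw [← htr, hz])
    refine ⟨t, E.symm m, ?_⟩
    apply E.injective
    rw [map_add, map_smul, map_sub, map_mul, map_mul, AlgEquiv.apply_symm_apply,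
      AlgEquiv.apply_symm_apply, hEA]
    have h1 : (E z - t • hMat k) * (Matrix.diagonal ![α, β] * E B) =
        (Matrix.diagonal ![α, β] * m - m * Matrix.diagonal ![α, β]) * E B := by
      rw [← mul_assoc, hm]
    rw [hEAB, mul_one, sub_mul, mul_assoc m, hEAB, mul_one] at h1
    rw [← h1]
    abel

end End

end Fermat.Agent.S56.GW.H669

end
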