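import Fermat.Agent.S56.GW.RQCup
import Fermat.Agent.S56.H606.Gen
import Fermat.Agent.S56.H554.LocTWCup
import Fermat.Agent.S56.GW.H669.UrUrLinAlg

/-!
# Row S56 — (REC-Q) leaf URUR (helper669)

`urUr : Fermat.Agent.S56.GW.UrUrStatement`: at a Taylor–Wiles prime `q` (`P ∣ q`), the cup product
of two unramified local cocycles `x` (ad⁰) and `y` (twisted ad⁰) on `D_P` is a local twisted
2-coboundary.

Proof (route B of `coord/S56-RECQ-helper546.md`).  `D_P` fixes `μ_p` (as `q ≡ 1 mod p`), so the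
twist is trivial on `D_P`.  Let `φ` be a Frobenius at `P`, `A = ρ̄ φ` (regular semisimple) and `h`
the Cartan direction of `UrUrLinAlg.exists_line_decomp`; `ρ̄(D_P) ⊆ ⟨A⟩` commutes with `h`.  Write
`x φ = t h + (A m A⁻¹ - m)` and `x₁ = x - dm`.  Modulo any finite level, `D_P` is generated by
`φ` and `I_P` (`H606.exists_frobenius_pow_mul_inertia`), hence for `σ ∈ D_P` there is `n` with
`x₁ σ = n t h` and `tr (h y σ) = n tr (h y φ)`.  So `x₁ ∪ y = d lam₂`,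
`lam₂ σ = - tr (h x₁ σ) tr (h y σ) / (2 tr h²)`, while `dm ∪ y = d tr (m y)` (`RQCup`).
-/

set_option autoImplicit false

open Polynomial

noncomputable section

namespace Fermat.Agent.S56.GW.H669

open Fermat.Agent.S56 Fermat.Agent.S56.H716 Fermat.Agent.S56.GW

section Local

variable {k : Type} [Field k] {ρbar : ResidualGaloisRep k} {p q : ℕ} {P : ValuationSubring Qb}

theorem p_ne_q_of_twLocal (hT : TWLocal ρbar p q P) : p ≠ q := by
  intro h
  have h1 : p ∣ q - 1 := hT.hq1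
  have h2 : 1 < q := hT.hq.one_lt
  have h3 : p ≤ q - 1 := Nat.le_of_dvd (by omega) h1
  omega

theorem two_ne_zero_of_twLocal (hT : TWLocal ρbar p q P) : (2 : k) ≠ 0 := by
  haveI := hT.hchar
  intro h
  have h1 : ((2 : ℕ) : k) = 0 := by exact_mod_cast h
  rw [CharP.cast_eq_zero_iff k p] at h1
  exact hT.hp2 ((Nat.prime_dvd_prime_iff_eq hT.hp Nat.prime_two).mp h1)

/-- Modulo a finite level `L`, every element of `D_P` is `φ ^ n * ι * u` with `ι ∈ I_P` and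
`u ∈ D_P` fixing `L`. -/
theorem exists_eq_pow_mul_mul (hq : q.Prime) (hP : P.LiesOverPrime q)
    (L : IntermediateField ℚ Qb) [FiniteDimensional ℚ L] {φ : GQ} (hφ : P.IsFrobeniusAt φ q)
    {σ : GQ} (hσ : σ ∈ P.decompositionSubgroup ℚ) :
    ∃ (n : ℕ) (ι u : GQ), ι ∈ P.inertiaSubgroupIn ℚ ∧ u ∈ P.decompositionSubgroup ℚ ∧
      (∀ z ∈ L, u z = z) ∧ σ = φ ^ n * ι * u := by
  obtain ⟨n, ι, hι, h⟩ := H606.exists_frobenius_pow_mul_inertia hq hP L hφ hσ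
  have hιD : ι ∈ P.decompositionSubgroup ℚ :=
    Fermat.Agent.A2.H708.mem_decomposition_of_mem_inertiaIn P hι
  have hφn : φ ^ n ∈ P.decompositionSubgroup ℚ := pow_mem hφ.mem_decompositionSubgroup n
  refine ⟨n, ι, (φ ^ n * ι)⁻¹ * σ, hι,
    Subgroup.mul_mem _ (Subgroup.inv_mem _ (Subgroup.mul_mem _ hφn hιD)) hσ, fun z hz => ?_, ?_⟩
  · show (φ ^ n * ι)⁻¹ (σ z) = z
    rw [h z hz]
    show ((φ ^ n * ι)⁻¹ * (φ ^ n * ι)) z = z
    rw [inv_mul_cancel]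
    rfl
  · rw [mul_inv_cancel_left]

/-- At a Taylor–Wiles prime the decomposition group fixes the `p`-th roots of unity. -/
theorem isCycExp_one_of_mem_decomposition (hT : TWLocal ρbar p q P) {φ : GQ}
    (hφ : P.IsFrobeniusAt φ q) {σ : GQ} (hσ : σ ∈ P.decompositionSubgroup ℚ) :
    IsCycExp p σ 1 := by
  intro μ hμ
  rw [pow_one]
  have hpq := p_ne_q_of_twLocal hT
  have hint : IsIntegral ℚ μ := (AlgebraicClosure.isAlgebraic ℚ).isIntegral.isIntegral μ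
  haveI : FiniteDimensional ℚ (IntermediateField.adjoin ℚ {μ}) :=
    IntermediateField.adjoin.finiteDimensional hint
  obtain ⟨n, ι, hι, h⟩ := H606.exists_frobenius_pow_mul_inertia hT.hq hT.hP
    (IntermediateField.adjoin ℚ {μ}) hφ hσ
  rw [h μ (IntermediateField.mem_adjoin_simple_self ℚ μ)]
  have h1 : ι μ = μ := by
    have := H554.fixes_mu_of_mem_inertia hT.hq hT.hP hT.hp hpq hι μ hμ
    rwa [pow_one] at this
  have hφ1 : φ μ = μ := by
    have := H554.fixes_mu_of_isFrobeniusAt hT.hq hT.hP hT.hp hpq hT.hq1 hφ μ hμ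
    rwa [pow_one] at this
  have h2 : ∀ n : ℕ, (φ ^ n) μ = μ := by
    intro n
    induction n with
    | zero => rfl
    | succ n ih =>
      rw [pow_succ]
      show (φ ^ n) (φ μ) = μ
      rw [hφ1, ih]
  show (φ ^ n) (ι μ) = μ
  rw [h1, h2]

theorem det_eq_one_of_mem_decomposition (hT : TWLocal ρbar p q P) {φ : GQ}
    (hφ : P.IsFrobeniusAt φ q) {σ : GQ} (hσ : σ ∈ P.decompositionSubgroup ℚ) :
    LinearMap.det (ρbar.ρ σ) = 1 := by
  rw [hT.hdet σ 1 (isCycExp_one_of_mem_decomposition hT hφ hσ), Nat.cast_one]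

theorem natCast_eq_one_of_mem_decomposition (hT : TWLocal ρbar p q P) {φ : GQ}
    (hφ : P.IsFrobeniusAt φ q) {σ : GQ} (hσ : σ ∈ P.decompositionSubgroup ℚ) {a : ℕ}
    (ha : IsCycExp p σ a) : (a : k) = 1 := by
  rw [← hT.hdet σ a ha, det_eq_one_of_mem_decomposition hT hφ hσ]

theorem conj_eq_of_comm (σ : GQ) {h : Module.End k ρbar.V}
    (hc : ρbar.ρ σ * h = h * ρbar.ρ σ) : ρbar.ρ σ * h * ρbar.ρ σ⁻¹ = h := by
  rw [hc, mul_assoc, rho_mul_rho_inv, mul_one]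

theorem trace_mul_conj_of_comm (σ : GQ) {h : Module.End k ρbar.V}
    (hc : ρbar.ρ σ * h = h * ρbar.ρ σ) (w : Module.End k ρbar.V) :
    LinearMap.trace k ρbar.V (h * (ρbar.ρ σ * w * ρbar.ρ σ⁻¹)) =
      LinearMap.trace k ρbar.V (h * w) := by
  have h1 : h * (ρbar.ρ σ * w * ρbar.ρ σ⁻¹) = ρbar.ρ σ * (h * w) * ρbar.ρ σ⁻¹ := by
    rw [← mul_assoc, ← mul_assoc, ← hc]
    simp only [mul_assoc]
  rw [h1, trace_conj_rho]

theorem rho_comm_of_mem_decomposition (hT : TWLocal ρbar p q P) {φ : GQ}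
    (hφ : P.IsFrobeniusAt φ q) {h : Module.End k ρbar.V}
    (hc : ρbar.ρ φ * h = h * ρbar.ρ φ) {σ : GQ} (hσ : σ ∈ P.decompositionSubgroup ℚ) :
    ρbar.ρ σ * h = h * ρbar.ρ σ := by
  obtain ⟨L, hL, hLρ⟩ := ρbar.factorsThroughFiniteLevel
  haveI := hL
  obtain ⟨n, ι, u, hι, -, hfix, rfl⟩ := exists_eq_pow_mul_mul hT.hq hT.hP L hφ hσ
  rw [map_mul, map_mul, map_pow, hT.hur P hT.hP ι hι, hLρ u hfix, mul_one, mul_one]
  exact (Commute.pow_left (show Commute (ρbar.ρ φ) h from hc) n).eq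

variable (ρbar P) in
/-- Unramified (untwisted) cocycles on `D_P`, without trace condition. -/
structure IsUrCoc (c : GQ → Module.End k ρbar.V) : Prop where
  map_mul : ∀ σ ∈ P.decompositionSubgroup ℚ, ∀ τ ∈ P.decompositionSubgroup ℚ,
    c (σ * τ) = c σ + ρbar.ρ σ * c τ * ρbar.ρ σ⁻¹
  inertia : ∀ ι ∈ P.inertiaSubgroupIn ℚ, c ι = 0
  level : HasLevelOn (P.decompositionSubgroup ℚ) c

theorem IsUrCoc.apply_one {c : GQ → Module.End k ρbar.V} (hc : IsUrCoc ρbar P c) : c 1 = 0 := by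
  have h := hc.map_mul 1 (Subgroup.one_mem _) 1 (Subgroup.one_mem _)
  rw [mul_one, inv_one, map_one, one_mul, mul_one] at h
  exact left_eq_add.mp h

/-- The value at `φ ^ n`, paired with a direction `h` commuting with `ρ̄ φ`. -/
theorem IsUrCoc.trace_pow {c : GQ → Module.End k ρbar.V} (hc : IsUrCoc ρbar P c) {φ : GQ}
    (hφD : φ ∈ P.decompositionSubgroup ℚ) {h : Module.End k ρbar.V}
    (hh : ρbar.ρ φ * h = h * ρbar.ρ φ) (n : ℕ) :
    LinearMap.trace k ρbar.V (h * c (φ ^ n)) = n * LinearMap.trace k ρbar.V (h * c φ) := by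
  induction n with
  | zero => rw [pow_zero, hc.apply_one, mul_zero, map_zero, Nat.cast_zero, zero_mul]
  | succ n ih =>
    have hcomm : ρbar.ρ (φ ^ n) * h = h * ρbar.ρ (φ ^ n) := by
      rw [map_pow]
      exact (Commute.pow_left (show Commute (ρbar.ρ φ) h from hh) n).eq
    rw [pow_succ, hc.map_mul _ (pow_mem hφD n) _ hφD, mul_add, map_add, ih,
      trace_mul_conj_of_comm _ hcomm, Nat.cast_succ]
    ring

/-- If `c φ = t • h` with `h` commuting with `ρ̄ φ`, then `c (φ ^ n) = (n t) • h`. -/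
theorem IsUrCoc.apply_pow {c : GQ → Module.End k ρbar.V} (hc : IsUrCoc ρbar P c) {φ : GQ}
    (hφD : φ ∈ P.decompositionSubgroup ℚ) {h : Module.End k ρbar.V}
    (hh : ρbar.ρ φ * h = h * ρbar.ρ φ) {t : k} (ht : c φ = t • h) (n : ℕ) :
    c (φ ^ n) = ((n : k) * t) • h := by
  induction n with
  | zero => rw [pow_zero, hc.apply_one, Nat.cast_zero, zero_mul, zero_smul]
  | succ n ih =>
    have hcomm : ρbar.ρ (φ ^ n) * h = h * ρbar.ρ (φ ^ n) := by
      rw [map_pow]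
      exact (Commute.pow_left (show Commute (ρbar.ρ φ) h from hh) n).eq
    rw [pow_succ, hc.map_mul _ (pow_mem hφD n) _ hφD, ih, ht, mul_smul_comm, smul_mul_assoc,
      conj_eq_of_comm _ hcomm, ← add_smul, Nat.cast_succ]
    congr 1
    ring

/-- Two unramified cocycles on `D_P` are simultaneously determined by their values on the powers
of a Frobenius element. -/
theorem IsUrCoc.exists_pow {c₁ c₂ : GQ → Module.End k ρbar.V} (h₁ : IsUrCoc ρbar P c₁)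
    (h₂ : IsUrCoc ρbar P c₂) (hq : q.Prime) (hP : P.LiesOverPrime q) {φ : GQ}
    (hφ : P.IsFrobeniusAt φ q) {σ : GQ} (hσ : σ ∈ P.decompositionSubgroup ℚ) :
    ∃ n : ℕ, c₁ σ = c₁ (φ ^ n) ∧ c₂ σ = c₂ (φ ^ n) := by
  obtain ⟨L₁, hL₁, hl₁⟩ := h₁.level
  obtain ⟨L₂, hL₂, hl₂⟩ := h₂.level
  haveI := hL₁
  haveI := hL₂
  obtain ⟨n, ι, u, hι, hu, hfix, rfl⟩ := exists_eq_pow_mul_mul hq hP (L₁ ⊔ L₂) hφ hσ
  have hιD : ι ∈ P.decompositionSubgroup ℚ :=
    Fermat.Agent.A2.H708.mem_decomposition_of_mem_inertiaIn P hι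
  have hφn : φ ^ n ∈ P.decompositionSubgroup ℚ := pow_mem hφ.mem_decompositionSubgroup n
  refine ⟨n, ?_, ?_⟩
  · rw [hl₁ _ (Subgroup.mul_mem _ hφn hιD) u hu
      fun z hz => hfix z ((le_sup_left : L₁ ≤ L₁ ⊔ L₂) hz),
      h₁.map_mul _ hφn _ hιD, h₁.inertia ι hι, mul_zero, zero_mul, add_zero]
  · rw [hl₂ _ (Subgroup.mul_mem _ hφn hιD) u hu
      fun z hz => hfix z ((le_sup_right : L₂ ≤ L₁ ⊔ L₂) hz),
      h₂.map_mul _ hφn _ hιD, h₂.inertia ι hι, mul_zero, zero_mul, add_zero]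

/-- An unramified local twisted cocycle at a Taylor–Wiles prime is an `IsUrCoc`. -/
theorem isUrCoc_of_isTwCocycleOn (hT : TWLocal ρbar p q P) {φ : GQ}
    (hφ : P.IsFrobeniusAt φ q) {y : GQ → Module.End k ρbar.V}
    (hy : IsTwCocycleOn ρbar p (P.decompositionSubgroup ℚ) y)
    (hyI : ∀ σ ∈ P.inertiaSubgroupIn ℚ, y σ = 0) : IsUrCoc ρbar P y where
  map_mul σ hσ τ hτ := by
    rw [hy.map_mul σ hσ τ hτ 1 (isCycExp_one_of_mem_decomposition hT hφ hσ)]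
    unfold twAd
    rw [Nat.cast_one, one_smul]
  inertia := hyI
  level := hy.level

/-- The coboundary of `m`, as a function on `G_ℚ`. -/
def dEnd (ρbar : ResidualGaloisRep k) (m : Module.End k ρbar.V) (σ : GQ) :
    Module.End k ρbar.V :=
  ρbar.ρ σ * m * ρbar.ρ σ⁻¹ - m

theorem dEnd_mul (m : Module.End k ρbar.V) (σ τ : GQ) :
    dEnd ρbar m (σ * τ) = dEnd ρbar m σ + ρbar.ρ σ * dEnd ρbar m τ * ρbar.ρ σ⁻¹ := by
  unfold dEnd
  rw [mul_sub, sub_mul, conj_conj]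
  abel

theorem dEnd_eq_zero (m : Module.End k ρbar.V) {ι : GQ} (h : ρbar.ρ ι = 1) :
    dEnd ρbar m ι = 0 := by
  unfold dEnd
  rw [h, rho_inv_eq_one ρbar h, one_mul, mul_one, sub_self]

theorem dEnd_mul_of_eq_one (m : Module.End k ρbar.V) (σ : GQ) {u : GQ} (h : ρbar.ρ u = 1) :
    dEnd ρbar m (σ * u) = dEnd ρbar m σ := by
  unfold dEnd
  rw [rho_mul_of_eq_one ρbar σ h, rho_mul_inv_of_eq_one ρbar σ h]

/-- An unramified local ad⁰-cocycle minus a coboundary is an `IsUrCoc`. -/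
theorem isUrCoc_sub_dEnd (hur : ρbar.IsUnramifiedAt q) (hP : P.LiesOverPrime q)
    {x : GQ → Module.End k ρbar.V}
    (hx : IsAdCocycleOn ρbar (P.decompositionSubgroup ℚ) x)
    (hxI : ∀ σ ∈ P.inertiaSubgroupIn ℚ, x σ = 0) (m : Module.End k ρbar.V) :
    IsUrCoc ρbar P (fun σ => x σ - dEnd ρbar m σ) where
  map_mul σ hσ τ hτ := by
    rw [hx.map_mul σ hσ τ hτ, dEnd_mul, mul_sub, sub_mul]
    abel
  inertia ι hι := by
    rw [hxI ι hι, dEnd_eq_zero m (hur P hP ι hι), sub_zero]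
  level := by
    obtain ⟨L₁, hL₁, h₁⟩ := hx.level
    obtain ⟨L₃, hL₃, h₃⟩ := ρbar.factorsThroughFiniteLevel
    refine ⟨L₁ ⊔ L₃, inferInstance, fun σ hσ τ hτ hfix => ?_⟩
    simp only
    rw [h₁ σ hσ τ hτ fun z hz => hfix z ((le_sup_left : L₁ ≤ L₁ ⊔ L₃) hz),
      dEnd_mul_of_eq_one m σ (h₃ τ fun z hz => hfix z ((le_sup_right : L₃ ≤ L₁ ⊔ L₃) hz))]

end Local

/-- **URUR**: at a Taylor–Wiles prime, unramified ∪ unramified is a local 2-coboundary. -/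
theorem urUr : UrUrStatement := by
  intro k _ _ ρbar p q P hT x y hx hy hxI hyI
  obtain ⟨φ, hφ, -⟩ := Fermat.Agent.Lib.Cheb.H476.exists_frobenius_at q hT.hq P hT.hP
  have hφD : φ ∈ P.decompositionSubgroup ℚ := hφ.mem_decompositionSubgroup
  obtain ⟨α, β, hαβ, hchar⟩ := hT.hfrob φ hφ
  have h2 : (2 : k) ≠ 0 := two_ne_zero_of_twLocal hT
  obtain ⟨h, hAh, hTne, hdec⟩ := exists_line_decomp ρbar.finrank_eq h2 (ρbar.ρ φ) (ρbar.ρ φ⁻¹)
    (rho_mul_rho_inv ρbar φ) hαβ hchar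
  obtain ⟨t, m, hz⟩ := hdec (x φ) (hx.trace_eq_zero φ hφD)
  -- the two unramified cocycles `x₁ = x - dm` and `y`
  have hx₁ : IsUrCoc ρbar P (fun σ => x σ - dEnd ρbar m σ) :=
    isUrCoc_sub_dEnd hT.hur hT.hP hx hxI m
  have hy₁ : IsUrCoc ρbar P y := isUrCoc_of_isTwCocycleOn hT hφ hy hyI
  have hx₁φ : (fun σ => x σ - dEnd ρbar m σ) φ = t • h := by
    show x φ - dEnd ρbar m φ = t • h
    rw [hz]
    unfold dEnd
    abel
  have hcomm : ∀ σ ∈ P.decompositionSubgroup ℚ, ρbar.ρ σ * h = h * ρbar.ρ σ :=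
    fun σ hσ => rho_comm_of_mem_decomposition hT hφ hAh hσ
  -- every element of `D_P` is a power of Frobenius, as far as `x₁` and `y` are concerned
  have key : ∀ σ ∈ P.decompositionSubgroup ℚ, ∃ n : ℕ,
      x σ - dEnd ρbar m σ = ((n : k) * t) • h ∧
      LinearMap.trace k ρbar.V (h * y σ) = n * LinearMap.trace k ρbar.V (h * y φ) := by
    intro σ hσ
    obtain ⟨n, h1, h2⟩ := hx₁.exists_pow hy₁ hT.hq hT.hP hφ hσ
    refine ⟨n, ?_, ?_⟩
    · have h3 := hx₁.apply_pow hφD hAh hx₁φ n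
      exact h1.trans h3
    · rw [h2, hy₁.trace_pow hφD hAh n]
  -- the coboundary part
  obtain ⟨lam₁, hl₁, hc₁⟩ := cup_isTw2CoboundaryOn_of_coboundary (c := dEnd ρbar m)
    hT.hp.ne_zero hT.hdet ⟨m, fun σ _ => rfl⟩ hy
  -- the Cartan part
  have hl₂ : HasLevelOn (P.decompositionSubgroup ℚ) (fun σ =>
      -(LinearMap.trace k ρbar.V (h * (x σ - dEnd ρbar m σ)) *
        LinearMap.trace k ρbar.V (h * y σ)) / (2 * LinearMap.trace k ρbar.V (h * h))) := by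
    obtain ⟨L₁, hL₁, h₁⟩ := hx₁.level
    obtain ⟨L₂, hL₂, h₂⟩ := hy₁.level
    refine ⟨L₁ ⊔ L₂, inferInstance, fun σ hσ τ hτ hfix => ?_⟩
    have e1 := h₁ σ hσ τ hτ fun z hz => hfix z ((le_sup_left : L₁ ≤ L₁ ⊔ L₂) hz)
    have e2 := h₂ σ hσ τ hτ fun z hz => hfix z ((le_sup_right : L₂ ≤ L₁ ⊔ L₂) hz)
    simp only at e1
    simp only
    rw [e1, e2]
  refine ⟨_, hl₁.add hl₂, fun σ hσ τ hτ a ha => ?_⟩
  have ha1 : (a : k) = 1 := natCast_eq_one_of_mem_decomposition hT hφ hσ ha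
  have hsplit : cup ρbar x y σ τ = cup ρbar (dEnd ρbar m) y σ τ +
      LinearMap.trace k ρbar.V ((x σ - dEnd ρbar m σ) *
        (LinearMap.det (ρbar.ρ σ) • (ρbar.ρ σ * y τ * ρbar.ρ σ⁻¹))) := by
    unfold cup
    rw [← map_add, ← add_mul, add_sub_cancel]
  obtain ⟨n, hn1, hn2⟩ := key σ hσ
  obtain ⟨n', hn1', hn2'⟩ := key τ hτ
  have hστ1 : x (σ * τ) - dEnd ρbar m (σ * τ) = (((n : k) + n') * t) • h := by
    have := hx₁.map_mul σ hσ τ hτ
    rw [this, hn1, hn1', mul_smul_comm, smul_mul_assoc, conj_eq_of_comm _ (hcomm σ hσ),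
      ← add_smul]
    congr 1
    ring
  have hστ2 : LinearMap.trace k ρbar.V (h * y (σ * τ)) =
      ((n : k) + n') * LinearMap.trace k ρbar.V (h * y φ) := by
    rw [hy₁.map_mul σ hσ τ hτ, mul_add, map_add, trace_mul_conj_of_comm _ (hcomm σ hσ), hn2,
      hn2']
    ring
  have hcup : LinearMap.trace k ρbar.V ((x σ - dEnd ρbar m σ) *
        (LinearMap.det (ρbar.ρ σ) • (ρbar.ρ σ * y τ * ρbar.ρ σ⁻¹))) =
      (n : k) * t * ((n' : k) * LinearMap.trace k ρbar.V (h * y φ)) := by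
    rw [det_eq_one_of_mem_decomposition hT hφ hσ, one_smul, hn1, smul_mul_assoc, map_smul,
      smul_eq_mul, trace_mul_conj_of_comm _ (hcomm σ hσ), hn2']
  rw [hsplit, hc₁ σ hσ τ hτ a ha, hcup, ha1]
  simp only [Pi.add_apply]
  rw [hστ1, hστ2, hn1, hn1', hn2, hn2']
  simp only [mul_smul_comm, map_smul, smul_eq_mul]
  field_simp
  ring

end Fermat.Agent.S56.GW.H669

end
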